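import Mathlib

/-!
# Programme III (Deligne–Serre), kernel DS5: bounded order from few traces — classification-free

`F` a field with `2 ≠ 0`, `Γ` a finite group, `ρ : Γ →* M₂(F)` injective and SEMISIMPLE (every
`ρ(Γ)`-stable subspace of `F²` has a stable complement), `T ⊂ F` finite.  If at least `7/8` of the
elements of `Γ` have trace in `T`, then `|Γ| ≤ 2 |T|⁴`.

This replaces §7 of Deligne–Serre (which uses Dickson's classification of the subgroups of
`GL₂(𝔽_ℓ)`) by a "trace trick": let `A` be the `F`-span of `ρ(Γ)`, a subalgebra of `M₂(F)` with `F²`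
a faithful semisimple module.

* the trace form `(x, y) ↦ tr (x y)` is nondegenerate on `A` (`eq_zero_of_trace_form`): an element
  `x` of its radical satisfies `tr y = tr y² = 0`, hence `y² = 0`, for all `y ∈ x A`; for `w = x v`
  split `v = v₁ + v₂` along `A w ⊕ W'`; then `w = x v₁ = (x a) w` with `(x a)² = 0`, so `w = 0`;
* choose `g₁, …, g_r ∈ Γ` (`r ≤ 4`) with `ρ(g_i)` a basis of `A`; then
  `γ ↦ (tr ρ(g_i γ))_i` is injective on `Γ`;
* the set `H' = {γ | tr ρ(g_i γ) ∈ T for all i}` has at least `|Γ|/2` elements and injects into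
  `T^r`.
-/

set_option autoImplicit false

namespace Fermat.Agent.DS.DS5

open Matrix

variable {F : Type*} [Field F]


/-- In `(Matrix (Fin 2) (Fin 2) F)(F)`, `2 ≠ 0`: `tr x = 0` and `tr x² = 0` imply `x² = 0`. -/
theorem mul_self_eq_zero_of_trace (h2 : (2 : F) ≠ 0) (x : (Matrix (Fin 2) (Fin 2) F)) (h1 : x.trace = 0)
    (h1' : (x * x).trace = 0) : x * x = 0 := by
  have ht : x 0 0 + x 1 1 = 0 := by
    simpa [Matrix.trace, Fin.sum_univ_two] using h1
  have ht' : x 0 0 * x 0 0 + x 0 1 * x 1 0 + (x 1 0 * x 0 1 + x 1 1 * x 1 1) = 0 := by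
    simpa [Matrix.trace, Fin.sum_univ_two, Matrix.mul_apply] using h1'
  have hd : x 1 1 = -x 0 0 := by linear_combination ht
  have hk : x 0 0 * x 0 0 + x 0 1 * x 1 0 = 0 := by
    have : (2 : F) * (x 0 0 * x 0 0 + x 0 1 * x 1 0) = 0 := by
      rw [hd] at ht'
      linear_combination ht'
    exact (mul_eq_zero.mp this).resolve_left h2
  ext i j
  fin_cases i <;> fin_cases j
  · show (x * x) 0 0 = 0
    rw [Matrix.mul_apply, Fin.sum_univ_two]
    exact hk
  · show (x * x) 0 1 = 0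
    rw [Matrix.mul_apply, Fin.sum_univ_two, hd]
    ring
  · show (x * x) 1 0 = 0
    rw [Matrix.mul_apply, Fin.sum_univ_two, hd]
    ring
  · show (x * x) 1 1 = 0
    rw [Matrix.mul_apply, Fin.sum_univ_two, hd]
    linear_combination hk

/-- `a ↦ a *ᵥ w` as a linear map. -/
def mulVecRight (w : (Fin 2 → F)) : (Matrix (Fin 2) (Fin 2) F) →ₗ[F] (Fin 2 → F) where
  toFun a := a *ᵥ w
  map_add' a b := add_mulVec a b w
  map_smul' c a := smul_mulVec c a w

@[simp] theorem mulVecRight_apply (w : (Fin 2 → F)) (a : (Matrix (Fin 2) (Fin 2) F)) : mulVecRight w a = a *ᵥ w := rfl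

/-- `a ↦ tr (a x)` as a linear map. -/
def traceMulRight (x : (Matrix (Fin 2) (Fin 2) F)) : (Matrix (Fin 2) (Fin 2) F) →ₗ[F] F where
  toFun a := (a * x).trace
  map_add' a b := by rw [add_mul, trace_add]
  map_smul' c a := by rw [smul_mul_assoc, trace_smul, RingHom.id_apply]

@[simp] theorem traceMulRight_apply (x a : (Matrix (Fin 2) (Fin 2) F)) : traceMulRight x a = (a * x).trace := rfl

theorem eq_zero_of_forall_mulVec {x : (Matrix (Fin 2) (Fin 2) F)} (h : ∀ v : (Fin 2 → F), x *ᵥ v = 0) : x = 0 := by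
  have h1 : Matrix.toLin' x = 0 := LinearMap.ext fun v => by
    rw [Matrix.toLin'_apply, h v, LinearMap.zero_apply]
  exact (LinearEquiv.map_eq_zero_iff _).mp h1

section Core

variable {Γ : Type*} [Group Γ] (ρ : Γ →* (Matrix (Fin 2) (Fin 2) F))

/-- the subalgebra generated (= spanned) by the image of `ρ` -/
def imgAlg : Subalgebra F (Matrix (Fin 2) (Fin 2) F) := Algebra.adjoin F (Set.range ρ)

theorem map_mem_imgAlg (γ : Γ) : ρ γ ∈ imgAlg ρ := Algebra.subset_adjoin ⟨γ, rfl⟩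

theorem imgAlg_toSubmodule : Subalgebra.toSubmodule (imgAlg ρ) = Submodule.span F (Set.range ρ) := by
  unfold imgAlg
  rw [Algebra.adjoin_eq_span]
  have h3 : (Submonoid.closure (Set.range ρ) : Set (Matrix (Fin 2) (Fin 2) F)) = Set.range ρ := by
    rw [← MonoidHom.coe_mrange, Submonoid.closure_eq]
  rw [h3]

/-- A `ρ(Γ)`-stable subspace is stable under the spanned algebra. -/
theorem mulVec_mem_of_mem_imgAlg {W : Submodule F (Fin 2 → F)} (hW : ∀ γ, ∀ v ∈ W, ρ γ *ᵥ v ∈ W)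
    {a : (Matrix (Fin 2) (Fin 2) F)} (ha : a ∈ imgAlg ρ) : ∀ v ∈ W, a *ᵥ v ∈ W := by
  unfold imgAlg at ha
  induction ha using Algebra.adjoin_induction with
  | mem x hx =>
    obtain ⟨γ, rfl⟩ := hx
    exact hW γ
  | algebraMap r =>
    intro v hv
    rw [Algebra.algebraMap_eq_smul_one, smul_mulVec, one_mulVec]
    exact W.smul_mem r hv
  | add x y _ _ hx hy =>
    intro v hv
    rw [add_mulVec]
    exact W.add_mem (hx v hv) (hy v hv)
  | mul x y _ _ hx hy =>
    intro v hv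
    rw [← mulVec_mulVec]
    exact hx _ (hy v hv)

/-- the cyclic submodule `A w` -/
def orb (w : (Fin 2 → F)) : Submodule F (Fin 2 → F) := (Subalgebra.toSubmodule (imgAlg ρ)).map (mulVecRight w)

theorem mem_orb {w u : (Fin 2 → F)} : u ∈ orb ρ w ↔ ∃ a ∈ imgAlg ρ, a *ᵥ w = u := by
  unfold orb
  rw [Submodule.mem_map]
  simp only [Subalgebra.mem_toSubmodule, mulVecRight_apply]

theorem self_mem_orb (w : (Fin 2 → F)) : w ∈ orb ρ w :=
  (mem_orb ρ).mpr ⟨1, (imgAlg ρ).one_mem, one_mulVec w⟩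

theorem orb_stable (w : (Fin 2 → F)) (γ : Γ) : ∀ u ∈ orb ρ w, ρ γ *ᵥ u ∈ orb ρ w := by
  intro u hu
  obtain ⟨a, ha, rfl⟩ := (mem_orb ρ).mp hu
  refine (mem_orb ρ).mpr ⟨ρ γ * a, (imgAlg ρ).mul_mem (map_mem_imgAlg ρ γ) ha, ?_⟩
  rw [← mulVec_mulVec]

/-- the semisimplicity hypothesis -/
def IsSemisimpleRep : Prop :=
  ∀ W : Submodule F (Fin 2 → F), (∀ γ, ∀ v ∈ W, ρ γ *ᵥ v ∈ W) →
    ∃ W' : Submodule F (Fin 2 → F), (∀ γ, ∀ v ∈ W', ρ γ *ᵥ v ∈ W') ∧ IsCompl W W'

variable {ρ}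

/-- **Nondegeneracy of the trace form on the spanned algebra of a semisimple representation.** -/
theorem eq_zero_of_trace_form (h2 : (2 : F) ≠ 0) (hss : IsSemisimpleRep ρ) {x : (Matrix (Fin 2) (Fin 2) F)}
    (hx : x ∈ imgAlg ρ) (hR : ∀ a ∈ imgAlg ρ, (a * x).trace = 0) : x = 0 := by
  -- every `y = x a` squares to zero
  have hsq : ∀ a ∈ imgAlg ρ, (x * a) * (x * a) = 0 := by
    intro a ha
    have hy : x * a ∈ imgAlg ρ := (imgAlg ρ).mul_mem hx ha
    have hRy : ∀ b ∈ imgAlg ρ, (b * (x * a)).trace = 0 := by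
      intro b hb
      rw [← Matrix.mul_assoc, Matrix.trace_mul_comm, ← Matrix.mul_assoc]
      exact hR _ ((imgAlg ρ).mul_mem ha hb)
    refine mul_self_eq_zero_of_trace h2 _ ?_ (hRy _ hy)
    have := hRy 1 (imgAlg ρ).one_mem
    rwa [Matrix.one_mul] at this
  apply eq_zero_of_forall_mulVec
  intro v
  set w := x *ᵥ v with hw
  obtain ⟨W', hW', hc⟩ := hss (orb ρ w) (orb_stable ρ w)
  have hv : v ∈ orb ρ w ⊔ W' := by
    rw [hc.sup_eq_top]
    trivial
  obtain ⟨v₁, hv₁, v₂, hv₂, hsum⟩ := Submodule.mem_sup.mp hv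
  have hxv₁ : x *ᵥ v₁ ∈ orb ρ w := mulVec_mem_of_mem_imgAlg ρ (orb_stable ρ w) hx v₁ hv₁
  have hxv₂ : x *ᵥ v₂ ∈ W' := mulVec_mem_of_mem_imgAlg ρ hW' hx v₂ hv₂
  have hsplit : w = x *ᵥ v₁ + x *ᵥ v₂ := by rw [hw, ← hsum, mulVec_add]
  have hxv₂0 : x *ᵥ v₂ = 0 := by
    have h1 : x *ᵥ v₂ ∈ orb ρ w := by
      have : x *ᵥ v₂ = w - x *ᵥ v₁ := by rw [hsplit]; abel
      rw [this]
      exact (orb ρ w).sub_mem (self_mem_orb ρ w) hxv₁
    have h2' : x *ᵥ v₂ ∈ orb ρ w ⊓ W' := ⟨h1, hxv₂⟩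
    rw [hc.inf_eq_bot] at h2'
    exact (Submodule.mem_bot F).mp h2'
  obtain ⟨a, ha, hav⟩ := (mem_orb ρ).mp hv₁
  have hfix : (x * a) *ᵥ w = w := by
    rw [← mulVec_mulVec, hav]
    rw [hsplit, hxv₂0, add_zero]
  have h0 := congrArg (fun m : (Matrix (Fin 2) (Fin 2) F) => m *ᵥ w) (hsq a ha)
  simp only [zero_mulVec] at h0
  rw [← mulVec_mulVec, hfix, hfix] at h0
  exact h0

variable [Fintype Γ]

open Classical in
/-- **DS5, core form.** -/
theorem card_le_core (hρ : Function.Injective ρ) (h2 : (2 : F) ≠ 0) (hss : IsSemisimpleRep ρ)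
    (T : Finset F)
    (hT : 7 * Fintype.card Γ ≤ 8 * (Finset.univ.filter fun γ : Γ => (ρ γ).trace ∈ T).card) :
    Fintype.card Γ ≤ 2 * T.card ^ 4 := by
  obtain ⟨b, hbsub, hbspan, hbli⟩ := exists_linearIndependent F (Set.range ρ)
  have : Fintype b := hbli.setFinite.fintype
  have hcard : Fintype.card b ≤ 4 := by
    have h := hbli.fintype_card_le_finrank
    have h4 : Module.finrank F (Matrix (Fin 2) (Fin 2) F) = 4 := by
      rw [Module.finrank_matrix]
      simp
    rwa [h4] at h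
  choose g hg using fun m : b => hbsub m.2
  set H : Finset Γ := Finset.univ.filter fun γ : Γ => (ρ γ).trace ∈ T with hH
  set H' : Finset Γ := Finset.univ.filter fun γ : Γ => ∀ m : b, g m * γ ∈ H with hH'
  -- the complement of `H'` is small
  have hcompl : H'ᶜ ⊆ Finset.univ.biUnion fun m : b => Hᶜ.image fun γ => (g m)⁻¹ * γ := by
    intro γ hγ
    rw [Finset.mem_compl, hH', Finset.mem_filter] at hγ
    simp only [Finset.mem_univ, true_and, not_forall] at hγ
    obtain ⟨m, hm⟩ := hγ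
    refine Finset.mem_biUnion.mpr ⟨m, Finset.mem_univ _, Finset.mem_image.mpr ⟨g m * γ, ?_, ?_⟩⟩
    · exact Finset.mem_compl.mpr hm
    · rw [inv_mul_cancel_left]
  have hc1 : H'ᶜ.card ≤ Fintype.card b * Hᶜ.card := by
    refine (Finset.card_le_card hcompl).trans ?_
    refine Finset.card_biUnion_le.trans ?_
    calc ∑ m : b, (Hᶜ.image fun γ => (g m)⁻¹ * γ).card ≤ ∑ _m : b, Hᶜ.card :=
          Finset.sum_le_sum fun m _ => Finset.card_image_le
      _ = Fintype.card b * Hᶜ.card := by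
          rw [Finset.sum_const, Finset.card_univ, smul_eq_mul]
  -- the injection of `H'` into `T ^ b`
  have hinj : ∀ γ γ' : Γ, (∀ m : b, ((m : (Matrix (Fin 2) (Fin 2) F)) * ρ γ).trace = ((m : (Matrix (Fin 2) (Fin 2) F)) * ρ γ').trace) → γ = γ' := by
    intro γ γ' h
    apply hρ
    have hxA : ρ γ - ρ γ' ∈ imgAlg ρ :=
      (imgAlg ρ).sub_mem (map_mem_imgAlg ρ γ) (map_mem_imgAlg ρ γ')
    have hker : Submodule.span F b ≤ LinearMap.ker (traceMulRight (ρ γ - ρ γ')) := by
      rw [Submodule.span_le]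
      intro m hm
      rw [SetLike.mem_coe, LinearMap.mem_ker, traceMulRight_apply, Matrix.mul_sub, trace_sub,
        h ⟨m, hm⟩, sub_self]
    have hR : ∀ a ∈ imgAlg ρ, (a * (ρ γ - ρ γ')).trace = 0 := by
      intro a ha
      have ha' : a ∈ Submodule.span F b := by
        rw [hbspan, ← imgAlg_toSubmodule]
        exact ha
      exact LinearMap.mem_ker.mp (hker ha')
    exact sub_eq_zero.mp (eq_zero_of_trace_form h2 hss hxA hR)
  have hc2 : H'.card ≤ T.card ^ Fintype.card b := by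
    have hmaps : ∀ γ ∈ H', (fun m : b => ((m : (Matrix (Fin 2) (Fin 2) F)) * ρ γ).trace) ∈
        Fintype.piFinset fun _ : b => T := by
      intro γ hγ
      rw [Fintype.mem_piFinset]
      intro m
      rw [hH', Finset.mem_filter] at hγ
      have := hγ.2 m
      rw [hH, Finset.mem_filter, map_mul, hg m] at this
      exact this.2
    have := Finset.card_le_card_of_injOn (fun γ => fun m : b => ((m : (Matrix (Fin 2) (Fin 2) F)) * ρ γ).trace) hmaps
      (fun γ _ γ' _ h => hinj γ γ' fun m => congrFun h m)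
    rwa [Fintype.card_piFinset, Finset.prod_const, Finset.card_univ] at this
  -- arithmetic
  have hn1 : H'.card + H'ᶜ.card = Fintype.card Γ := Finset.card_add_card_compl H'
  have hn2 : H.card + Hᶜ.card = Fintype.card Γ := Finset.card_add_card_compl H
  rcases Nat.eq_zero_or_pos T.card with ht0 | htpos
  · -- `T = ∅`: then `H = ∅` and `Γ` would be empty
    have hH0 : H.card = 0 := by
      rw [Finset.card_eq_zero, hH, Finset.filter_eq_empty_iff]
      intro γ _
      rw [Finset.card_eq_zero.mp ht0]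
      exact Finset.notMem_empty _
    rw [hH0] at hT
    omega
  · have hpow : T.card ^ Fintype.card b ≤ T.card ^ 4 := Nat.pow_le_pow_right htpos hcard
    have hc1' : H'ᶜ.card ≤ 4 * Hᶜ.card := hc1.trans (Nat.mul_le_mul_right _ hcard)
    have hc2' : H'.card ≤ T.card ^ 4 := hc2.trans hpow
    omega

end Core

/-! ### Subgroups of `GL₂(F)` -/

section Subgroup

/-- Semisimplicity of a subgroup `G ≤ GL₂(F)`: every `G`-stable subspace of `F²` has a `G`-stable
complement. -/
def IsSemisimpleSubgroup (G : Subgroup (GL (Fin 2) F)) : Prop :=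
  ∀ W : Submodule F (Fin 2 → F),
    (∀ g ∈ G, ∀ v ∈ W, ((g : GL (Fin 2) F) : Matrix (Fin 2) (Fin 2) F) *ᵥ v ∈ W) →
    ∃ W' : Submodule F (Fin 2 → F),
      (∀ g ∈ G, ∀ v ∈ W', ((g : GL (Fin 2) F) : Matrix (Fin 2) (Fin 2) F) *ᵥ v ∈ W') ∧ IsCompl W W'

/-- the inclusion `G → M₂(F)` as a monoid homomorphism -/
def subgroupHom (G : Subgroup (GL (Fin 2) F)) : G →* Matrix (Fin 2) (Fin 2) F :=
  (Units.coeHom (Matrix (Fin 2) (Fin 2) F)).comp G.subtype

@[simp] theorem subgroupHom_apply (G : Subgroup (GL (Fin 2) F)) (g : G) :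
    subgroupHom G g = ((g : GL (Fin 2) F) : Matrix (Fin 2) (Fin 2) F) := rfl

theorem subgroupHom_injective (G : Subgroup (GL (Fin 2) F)) :
    Function.Injective (subgroupHom G) := by
  intro g g' h
  exact Subtype.ext (Units.ext h)

/-- **DS5 (Deligne–Serre §7, classification-free).** A finite semisimple subgroup `G` of `GL₂(F)`,
`2 ≠ 0` in `F`, in which at least `7/8` of the elements have their trace in a finite set `T`, has at
most `2 |T|⁴` elements. -/
theorem card_le_of_trace_mem (h2 : (2 : F) ≠ 0) (G : Subgroup (GL (Fin 2) F)) [Finite G]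
    (hss : IsSemisimpleSubgroup G) (T : Finset F)
    (hT : 7 * Nat.card G ≤
      8 * Nat.card {g : G // ((g : GL (Fin 2) F) : Matrix (Fin 2) (Fin 2) F).trace ∈ T}) :
    Nat.card G ≤ 2 * T.card ^ 4 := by
  classical
  have : Fintype G := Fintype.ofFinite G
  have e1 : Nat.card G = Fintype.card G := Nat.card_eq_fintype_card
  have e2 : Nat.card {g : G // ((g : GL (Fin 2) F) : Matrix (Fin 2) (Fin 2) F).trace ∈ T} =
      (Finset.univ.filter fun γ : G => (subgroupHom G γ).trace ∈ T).card := by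
    rw [Nat.card_eq_fintype_card]
    exact Fintype.card_subtype _
  rw [e1, e2] at hT
  rw [e1]
  refine card_le_core (ρ := subgroupHom G) (subgroupHom_injective G) h2 ?_ T hT
  intro W hW
  obtain ⟨W', hW', hc⟩ := hss W fun g hg v hv => hW ⟨g, hg⟩ v hv
  exact ⟨W', fun γ v hv => hW' γ.1 γ.2 v hv, hc⟩

end Subgroup

end Fermat.Agent.DS.DS5
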